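import Fermat.Agent.Root.SummaryPrimesMinusOne
import Mathlib.NumberTheory.Chebyshev
import Mathlib.NumberTheory.Harmonic.EulerMascheroni
import Mathlib.Analysis.SpecialFunctions.Pow.Real
import Mathlib.Tactic

/-!
# Selberg's symmetry formula

The identity of Tatuzawa and Iseki at `F x = ψ x - x + γ + 1`, whose sum `∑ F (x / n)` is
`O (log x)`, gives the formula by elementary means.
-/

set_option autoImplicit false

noncomputable section

open Finset
open scoped ArithmeticFunction.Moebius ArithmeticFunction.vonMangoldt Chebyshev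

namespace FA.SelbergSymmetry

theorem Icc_one_eq_Ioc (N : ℕ) : Icc 1 N = Ioc 0 N := by
  ext
  simp only [mem_Icc, mem_Ioc]
  omega

theorem sum_regroup (N : ℕ) (a : ℕ → ℝ) (h : ℕ → ℝ) :
    ∑ d ∈ Ioc 0 N, a d * ∑ m ∈ Ioc 0 (N / d), h (d * m) =
      ∑ n ∈ Ioc 0 N, h n * ∑ d ∈ n.divisors, a d := by
  calc ∑ d ∈ Ioc 0 N, a d * ∑ m ∈ Ioc 0 (N / d), h (d * m)
      = ∑ d ∈ Ioc 0 N, ∑ n ∈ (Ioc 0 N).filter (d ∣ ·), a d * h n := by
        refine sum_congr rfl fun d hd => ?_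
        have hd0 : 0 < d := (mem_Ioc.1 hd).1
        have himg : (Ioc 0 N).filter (d ∣ ·) = (Ioc 0 (N / d)).image (d * ·) := by
          ext n
          simp only [mem_filter, mem_Ioc, mem_image]
          constructor
          · rintro ⟨⟨h0, hN⟩, m, rfl⟩
            exact ⟨m, ⟨Nat.pos_of_mul_pos_left h0, (Nat.le_div_iff_mul_le hd0).2 (by
              rwa [mul_comm])⟩, rfl⟩
          · rintro ⟨m, ⟨h0, hm⟩, rfl⟩
            exact ⟨⟨Nat.mul_pos hd0 h0, (Nat.mul_le_mul_left d hm).trans (Nat.mul_div_le N d)⟩,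
              dvd_mul_right d m⟩
        rw [himg, sum_image fun i _ j _ e => Nat.eq_of_mul_eq_mul_left hd0 e, mul_sum]
    _ = ∑ n ∈ Ioc 0 N, ∑ d ∈ n.divisors, a d * h n := by
        simp only [sum_filter]
        rw [sum_comm]
        refine sum_congr rfl fun n hn => ?_
        rw [← sum_filter]
        refine sum_congr ?_ fun _ _ => rfl
        ext d
        simp only [mem_filter, mem_Ioc, Nat.mem_divisors]
        rw [mem_Ioc] at hn
        exact ⟨fun h => ⟨h.2, hn.1.ne'⟩, fun h => ⟨⟨Nat.pos_of_dvd_of_pos h.1 hn.1,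
          (Nat.le_of_dvd hn.1 h.1).trans hn.2⟩, h.1⟩⟩
    _ = _ := sum_congr rfl fun n _ => by
        rw [mul_sum]
        exact sum_congr rfl fun d _ => mul_comm _ _

/-- **The identity of Tatuzawa and Iseki.** -/
theorem tatuzawa_iseki (F : ℝ → ℝ) {x : ℝ} (hx : 1 ≤ x) :
    ∑ d ∈ Ioc 0 ⌊x⌋₊, (μ d : ℝ) * (Real.log (x / d) * ∑ n ∈ Ioc 0 ⌊x / d⌋₊, F (x / d / n)) =
      F x * Real.log x + ∑ n ∈ Ioc 0 ⌊x⌋₊, F (x / n) * Λ n := by
  have hx0 : x ≠ 0 := by linarith
  have e : ∀ d ∈ Ioc 0 ⌊x⌋₊,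
      (μ d : ℝ) * (Real.log (x / d) * ∑ n ∈ Ioc 0 ⌊x / d⌋₊, F (x / d / n)) =
        ((μ d : ℝ) * Real.log x - (μ d : ℝ) * Real.log d) *
          ∑ m ∈ Ioc 0 (⌊x⌋₊ / d), (fun n : ℕ => F (x / n)) (d * m) := by
    intro d hd
    rw [Real.log_div hx0 (Nat.cast_ne_zero.2 (mem_Ioc.1 hd).1.ne'), Nat.floor_div_natCast]
    simp only [Nat.cast_mul, div_div]
    ring
  rw [(sum_congr rfl e).trans (sum_regroup ⌊x⌋₊
    (fun d : ℕ => (μ d : ℝ) * Real.log x - (μ d : ℝ) * Real.log d) fun n : ℕ => F (x / n))]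
  have hμ : ∀ n : ℕ, 0 < n → ∑ d ∈ n.divisors,
      ((μ d : ℝ) * Real.log x - (μ d : ℝ) * Real.log d) =
        (if n = 1 then Real.log x else 0) + Λ n := by
    intro n hn
    have h1 : ∑ d ∈ n.divisors, (μ d : ℝ) = if n = 1 then 1 else 0 := by
      have h := congrArg (fun f : ArithmeticFunction ℤ => f n)
        ArithmeticFunction.moebius_mul_coe_zeta
      rw [ArithmeticFunction.coe_mul_zeta_apply, ArithmeticFunction.one_apply] at h
      exact_mod_cast h
    have h2 : ∑ d ∈ n.divisors, (μ d : ℝ) * Real.log d = -Λ n :=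
      ArithmeticFunction.sum_moebius_mul_log_eq
    rw [sum_sub_distrib, ← sum_mul, h1, h2, sub_neg_eq_add, ite_mul, one_mul, zero_mul]
  rw [sum_congr rfl fun n hn => by rw [hμ n (mem_Ioc.1 hn).1, mul_add], sum_add_distrib]
  congr 1
  simp only [mul_ite, mul_zero, sum_ite_eq']
  rw [if_pos (mem_Ioc.2 ⟨one_pos, (Nat.one_le_floor_iff x).2 hx⟩), Nat.cast_one, div_one]

/-- `log (n !)`. -/
theorem sum_log_bounds {n : ℕ} (hn : 1 ≤ n) :
    (n : ℝ) * Real.log n - n ≤ ∑ k ∈ Ioc 0 n, Real.log k ∧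
      ∑ k ∈ Ioc 0 n, Real.log k ≤ (n : ℝ) * Real.log n - n + Real.log n + 1 := by
  induction n, hn using Nat.le_induction with
  | base => simp
  | succ n hn ih =>
    obtain ⟨h1, h2⟩ := ih
    rw [sum_Ioc_succ_top (Nat.zero_le n)]
    have hn0 : (0 : ℝ) < n := Nat.cast_pos.2 hn
    have hpos : 0 < ((n : ℝ) + 1) / n := by positivity
    have hu := Real.log_le_sub_one_of_pos hpos
    have hl := Real.one_sub_inv_le_log_of_pos hpos
    rw [Real.log_div (by positivity) hn0.ne'] at hu hl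
    push_cast
    have e1 : (n : ℝ) * (((n : ℝ) + 1) / n - 1) = 1 := by field_simp; ring
    have e2 : ((n : ℝ) + 1) * (1 - (((n : ℝ) + 1) / n)⁻¹) = 1 := by field_simp; ring
    have u1 := mul_le_mul_of_nonneg_left hu hn0.le
    have l1 := mul_le_mul_of_nonneg_left hl (by positivity : (0 : ℝ) ≤ (n : ℝ) + 1)
    rw [e1] at u1
    rw [e2] at l1
    constructor <;> nlinarith

theorem sum_psi_eq (x : ℝ) :
    ∑ n ∈ Ioc 0 ⌊x⌋₊, ψ (x / n) = ∑ k ∈ Ioc 0 ⌊x⌋₊, Real.log k := by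
  have h := ArithmeticFunction.sum_Ioc_mul_eq_sum_sum
    (ArithmeticFunction.zeta : ArithmeticFunction ℝ) Λ ⌊x⌋₊
  rw [mul_comm, ArithmeticFunction.vonMangoldt_mul_zeta] at h
  simp only [ArithmeticFunction.log_apply] at h
  rw [h]
  refine sum_congr rfl fun n hn => ?_
  rw [ArithmeticFunction.natCoe_apply, ArithmeticFunction.zeta_apply_ne (mem_Ioc.1 hn).1.ne',
    Nat.cast_one, one_mul, Chebyshev.psi, Nat.floor_div_natCast]

theorem abs_sum_le {x : ℝ} (hx : 1 ≤ x) :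
    |∑ n ∈ Ioc 0 ⌊x⌋₊, (ψ (x / n) - x / n + (Real.eulerMascheroniConstant + 1))| ≤
      2 * Real.log x + 4 := by
  set N := ⌊x⌋₊ with hN
  have hN1 : 1 ≤ N := (Nat.one_le_floor_iff x).2 hx
  have hN0 : (0 : ℝ) < N := Nat.cast_pos.2 hN1
  have hNx : (N : ℝ) ≤ x := Nat.floor_le (by linarith)
  have hxN : x < (N : ℝ) + 1 := Nat.lt_floor_add_one x
  have hsum : ∑ n ∈ Ioc 0 N, (ψ (x / n) - x / n + (Real.eulerMascheroniConstant + 1)) =
      ∑ k ∈ Ioc 0 N, Real.log k - x * (harmonic N : ℝ) +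
        (N : ℝ) * (Real.eulerMascheroniConstant + 1) := by
    rw [sum_add_distrib, sum_sub_distrib, sum_psi_eq, sum_const, Nat.card_Ioc, Nat.sub_zero,
      nsmul_eq_mul, harmonic_eq_sum_Icc, Icc_one_eq_Ioc]
    push_cast
    rw [mul_sum]
    simp only [div_eq_mul_inv]
    rfl
  rw [hsum]
  obtain ⟨L1, L2⟩ := sum_log_bounds hN1
  have g1 := Real.eulerMascheroniSeq_lt_eulerMascheroniConstant N
  have g2 := Real.eulerMascheroniConstant_lt_eulerMascheroniSeq' N
  rw [Real.eulerMascheroniSeq] at g1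
  rw [Real.eulerMascheroniSeq', if_neg (by omega)] at g2
  have hlog : Real.log N ≤ Real.log x := Real.log_le_log hN0 hNx
  have hlN : 0 ≤ Real.log N := Real.log_natCast_nonneg N
  have hd : Real.log ((N : ℝ) + 1) - Real.log N ≤ 1 / N := by
    rw [← Real.log_div (by positivity) hN0.ne']
    refine (Real.log_le_sub_one_of_pos (by positivity)).trans (le_of_eq ?_)
    field_simp
    ring
  have hγ0 := Real.one_half_lt_eulerMascheroniConstant
  have hγ1 := Real.eulerMascheroniConstant_lt_two_thirds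
  set γ := Real.eulerMascheroniConstant
  set H := (harmonic N : ℝ)
  have hlx : 0 ≤ Real.log x := Real.log_nonneg hx
  have hθ : x * (H - Real.log N - γ) ≤ 2 := by
    calc x * (H - Real.log N - γ) ≤ ((N : ℝ) + 1) * (1 / N) :=
          mul_le_mul hxN.le (by linarith) (by linarith) (by positivity)
      _ ≤ 2 := by
          rw [mul_one_div, div_le_iff₀ hN0]
          linarith [show (1 : ℝ) ≤ N from Nat.one_le_cast.2 hN1]
  have hθ0 : 0 ≤ x * (H - Real.log N - γ) := mul_nonneg (by linarith) (by linarith)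
  have hr0 : 0 ≤ (x - N) * (Real.log N + γ) := mul_nonneg (by linarith) (by linarith)
  have hr1 : (x - N) * (Real.log N + γ) ≤ 1 * (Real.log N + γ) :=
    mul_le_mul_of_nonneg_right (by linarith) (by linarith)
  rw [abs_le]
  constructor <;> linarith

theorem sum_inv_sqrt_le (N : ℕ) :
    ∑ d ∈ Ioc 0 N, (Real.sqrt d)⁻¹ ≤ 2 * Real.sqrt N := by
  induction N with
  | zero => simp
  | succ N ih =>
    rw [sum_Ioc_succ_top (Nat.zero_le N)]
    push_cast
    have h1 : 0 < Real.sqrt ((N : ℝ) + 1) := Real.sqrt_pos.2 (by positivity)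
    have h2 := Real.sq_sqrt (show 0 ≤ (N : ℝ) + 1 by positivity)
    have h3 := Real.sq_sqrt (show 0 ≤ (N : ℝ) by positivity)
    have h4 : Real.sqrt N ≤ Real.sqrt ((N : ℝ) + 1) := Real.sqrt_le_sqrt (by linarith)
    have h5 : (Real.sqrt ((N : ℝ) + 1))⁻¹ ≤
        2 * (Real.sqrt ((N : ℝ) + 1) - Real.sqrt N) := by
      rw [inv_le_iff_one_le_mul₀ h1]
      nlinarith [mul_le_mul_of_nonneg_left h4 (Real.sqrt_nonneg (N : ℝ)), sq_nonneg
        (Real.sqrt ((N : ℝ) + 1) - Real.sqrt N)]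
    linarith

theorem log_mul_log_le {y : ℝ} (hy : 1 ≤ y) :
    Real.log y * (2 * Real.log y + 4) ≤ 48 * Real.sqrt y := by
  have h0 : 0 ≤ y := by linarith
  have hl : 0 ≤ Real.log y := Real.log_nonneg hy
  have h4 := Real.log_le_rpow_div h0 (show (0 : ℝ) < 1 / 4 by norm_num)
  have hsq : y ^ (1 / 4 : ℝ) * y ^ (1 / 4 : ℝ) = Real.sqrt y := by
    rw [← Real.rpow_add (by linarith), Real.sqrt_eq_rpow]
    norm_num
  have h1 : 1 ≤ y ^ (1 / 4 : ℝ) := Real.one_le_rpow hy (by norm_num)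
  nlinarith [mul_le_mul h4 h4 hl (by positivity)]

/-- The error in the identity of Tatuzawa and Iseki. -/
theorem abs_identity_le {x : ℝ} (hx : 1 ≤ x) :
    |(ψ x - x + (Real.eulerMascheroniConstant + 1)) * Real.log x + ∑ n ∈ Ioc 0 ⌊x⌋₊,
      (ψ (x / n) - x / n + (Real.eulerMascheroniConstant + 1)) * Λ n| ≤ 96 * x := by
  rw [← tatuzawa_iseki (fun y => ψ y - y + (Real.eulerMascheroniConstant + 1)) hx]
  have hx0 : 0 ≤ x := by linarith
  calc |∑ d ∈ Ioc 0 ⌊x⌋₊, (μ d : ℝ) * (Real.log (x / d) * ∑ n ∈ Ioc 0 ⌊x / d⌋₊,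
        (ψ (x / d / n) - x / d / n + (Real.eulerMascheroniConstant + 1)))|
      ≤ ∑ d ∈ Ioc 0 ⌊x⌋₊, 48 * Real.sqrt x * (Real.sqrt d)⁻¹ := by
        refine (abs_sum_le_sum_abs _ _).trans (sum_le_sum fun d hd => ?_)
        rw [mem_Ioc] at hd
        have hd0 : (0 : ℝ) < d := Nat.cast_pos.2 hd.1
        have hy : 1 ≤ x / d := by
          rw [le_div_iff₀ hd0, one_mul]
          exact (Nat.cast_le.2 hd.2).trans (Nat.floor_le hx0)
        rw [abs_mul, abs_mul, mul_assoc, ← div_eq_mul_inv, ← Real.sqrt_div hx0,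
          abs_of_nonneg (Real.log_nonneg hy)]
        calc |(μ d : ℝ)| * _ ≤ 1 * (Real.log (x / d) * (2 * Real.log (x / d) + 4)) := by
              refine mul_le_mul ?_ (mul_le_mul_of_nonneg_left (abs_sum_le hy)
                (Real.log_nonneg hy)) ?_ zero_le_one
              · exact_mod_cast ArithmeticFunction.abs_moebius_le_one
              · exact mul_nonneg (Real.log_nonneg hy) (abs_nonneg _)
          _ ≤ _ := by
              rw [one_mul]
              exact log_mul_log_le hy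
    _ ≤ 48 * Real.sqrt x * (2 * Real.sqrt ⌊x⌋₊) := by
        rw [← mul_sum]
        exact mul_le_mul_of_nonneg_left (sum_inv_sqrt_le _) (by positivity)
    _ ≤ 96 * x := by
        have := Real.sqrt_le_sqrt (Nat.floor_le hx0)
        nlinarith [Real.mul_self_sqrt hx0, Real.sqrt_nonneg x]

/-- **Selberg's symmetry formula.** -/
theorem selberg_symmetry :
    ∃ C : ℝ, ∀ x : ℝ, 1 ≤ x →
      |ψ x * Real.log x + ∑ n ∈ Ioc 0 ⌊x⌋₊, Λ n * ψ (x / n) - 2 * x * Real.log x| ≤ C * x := by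
  refine ⟨96 + 7 + 2 * (1 + (Real.log 4 + 4)), fun x hx => ?_⟩
  have hx0 : 0 ≤ x := by linarith
  have h := abs_identity_le hx
  set γ := Real.eulerMascheroniConstant
  set N := ⌊x⌋₊
  have hN1 : 1 ≤ N := (Nat.one_le_floor_iff x).2 hx
  have hN0 : (0 : ℝ) < N := Nat.cast_pos.2 hN1
  have hNx : (N : ℝ) ≤ x := Nat.floor_le hx0
  have hlog : |Real.log x - Real.log N| ≤ 1 := by
    have h1 : Real.log N ≤ Real.log x := Real.log_le_log hN0 hNx
    rw [abs_of_nonneg (by linarith), ← Real.log_div (by linarith) hN0.ne']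
    refine (Real.log_le_sub_one_of_pos (by positivity)).trans ?_
    rw [sub_le_iff_le_add, div_le_iff₀ hN0]
    linarith [Nat.lt_floor_add_one x, show (1 : ℝ) ≤ N from Nat.one_le_cast.2 hN1]
  have hM := FA.PrimesMinusOne.Summary.mertens_first N hN1
  have hψ := Chebyshev.psi_le_const_mul_self hx0
  have hψ0 := Chebyshev.psi_nonneg x
  have hlx : Real.log x ≤ x := (Real.log_le_sub_one_of_pos (by linarith)).trans (by linarith)
  have hlx0 := Real.log_nonneg hx
  have hγ : 0 ≤ γ + 1 ∧ γ + 1 ≤ 2 := by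
    constructor <;> linarith [Real.one_half_lt_eulerMascheroniConstant,
      Real.eulerMascheroniConstant_lt_two_thirds]
  have hg : (γ + 1) * (Real.log x + ψ x) ≤ 2 * (x + (Real.log 4 + 4) * x) :=
    mul_le_mul hγ.2 (add_le_add hlx hψ) (by positivity) zero_le_two
  have hg0 : 0 ≤ (γ + 1) * (Real.log x + ψ x) := mul_nonneg hγ.1 (by linarith)
  have e : ψ x * Real.log x + ∑ n ∈ Ioc 0 N, Λ n * ψ (x / n) - 2 * x * Real.log x =
      ((ψ x - x + (γ + 1)) * Real.log x + ∑ n ∈ Ioc 0 N, (ψ (x / n) - x / n + (γ + 1)) * Λ n)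
        + x * ((∑ n ∈ Ioc 0 N, Λ n / n - Real.log N) - (Real.log x - Real.log N))
        - (γ + 1) * (Real.log x + ψ x) := by
    have e1 : ∑ n ∈ Ioc 0 N, (ψ (x / n) - x / n + (γ + 1)) * Λ n =
        ∑ n ∈ Ioc 0 N, Λ n * ψ (x / n) - x * (∑ n ∈ Ioc 0 N, Λ n / n) + (γ + 1) * ψ x := by
      rw [show ψ x = ∑ n ∈ Ioc 0 N, Λ n from rfl, mul_sum, mul_sum, ← sum_sub_distrib,
        ← sum_add_distrib]
      exact sum_congr rfl fun n _ => by ring
    rw [e1]
    ring
  rw [e]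
  refine (abs_sub _ _).trans ?_
  refine (add_le_add ((abs_add_le _ _).trans (add_le_add h le_rfl)) le_rfl).trans ?_
  rw [abs_mul, abs_of_nonneg hx0, abs_of_nonneg hg0]
  have hd := mul_le_mul_of_nonneg_left ((abs_sub _ _).trans (add_le_add hM hlog)) hx0
  linarith

theorem sum_inv_sq_le (N : ℕ) (hN : 1 ≤ N) :
    ∑ m ∈ Ioc 0 N, ((m : ℝ) ^ 2)⁻¹ ≤ 2 - 1 / N := by
  induction N, hN using Nat.le_induction with
  | base => norm_num
  | succ N hN ih =>
    rw [sum_Ioc_succ_top (Nat.zero_le N)]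
    push_cast
    have hN0 : (0 : ℝ) < N := Nat.cast_pos.2 hN
    have e : (((N : ℝ) + 1) ^ 2)⁻¹ ≤ 1 / N - 1 / ((N : ℝ) + 1) := by
      rw [div_sub_div _ _ hN0.ne' (by positivity), inv_eq_one_div,
        div_le_div_iff₀ (by positivity) (by positivity)]
      ring_nf
      nlinarith
    linarith

theorem sum_vonMangoldt_mul_log_div_le {x : ℝ} (hx : 1 ≤ x) :
    ∑ n ∈ Ioc 0 ⌊x⌋₊, Λ n * Real.log (x / n) ≤ 2 * (Real.log 4 + 4) * x := by
  set g : ArithmeticFunction ℝ := ⟨fun m => (m : ℝ)⁻¹, by simp⟩ with hg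
  have hgap : ∀ m, g m = (m : ℝ)⁻¹ := fun m => rfl
  have hc : 0 ≤ Real.log 4 + 4 := by positivity
  calc ∑ n ∈ Ioc 0 ⌊x⌋₊, Λ n * Real.log (x / n)
      ≤ ∑ n ∈ Ioc 0 ⌊x⌋₊, Λ n * ∑ m ∈ Ioc 0 (⌊x⌋₊ / n), g m := by
        refine sum_le_sum fun n hn => mul_le_mul_of_nonneg_left ?_
          ArithmeticFunction.vonMangoldt_nonneg
        have hn0 : (0 : ℝ) < n := Nat.cast_pos.2 (mem_Ioc.1 hn).1
        have hpos : 0 < x / n := by positivity
        have h1 := Real.log_le_log hpos (Nat.lt_floor_add_one (x / n)).le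
        have h2 := log_add_one_le_harmonic ⌊x / n⌋₊
        push_cast at h2
        refine (h1.trans h2).trans (le_of_eq ?_)
        rw [harmonic_eq_sum_Icc, Icc_one_eq_Ioc, Nat.floor_div_natCast]
        simp only [hgap]
        push_cast
        rfl
    _ = ∑ m ∈ Ioc 0 ⌊x⌋₊, g m * ∑ n ∈ Ioc 0 (⌊x⌋₊ / m), Λ n := by
        rw [← ArithmeticFunction.sum_Ioc_mul_eq_sum_sum, mul_comm,
          ArithmeticFunction.sum_Ioc_mul_eq_sum_sum]
    _ ≤ ∑ m ∈ Ioc 0 ⌊x⌋₊, (Real.log 4 + 4) * x * ((m : ℝ) ^ 2)⁻¹ := by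
        refine sum_le_sum fun m hm => ?_
        have hm0 : (0 : ℝ) < m := Nat.cast_pos.2 (mem_Ioc.1 hm).1
        have h := Chebyshev.psi_le_const_mul_self (show 0 ≤ x / m by positivity)
        rw [Chebyshev.psi, Nat.floor_div_natCast] at h
        rw [hgap]
        refine (mul_le_mul_of_nonneg_left h (by positivity)).trans (le_of_eq ?_)
        field_simp
    _ ≤ _ := by
        rw [← mul_sum]
        have := sum_inv_sq_le ⌊x⌋₊ ((Nat.one_le_floor_iff x).2 hx)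
        have h0 : (0 : ℝ) ≤ 1 / (⌊x⌋₊ : ℝ) := by positivity
        refine (mul_le_mul_of_nonneg_left (this.trans (sub_le_self _ h0)) (by positivity)).trans ?_
        linarith

/-- The formula with convolution. -/
theorem selberg_symmetry_convolution :
    ∃ C : ℝ, ∀ x : ℝ, 1 ≤ x →
      |∑ n ∈ Ioc 0 ⌊x⌋₊, (Λ n * Real.log n + (Λ * Λ : ArithmeticFunction ℝ) n) -
        2 * x * Real.log x| ≤ C * x := by
  obtain ⟨C, hC⟩ := selberg_symmetry
  refine ⟨C + 2 * (Real.log 4 + 4), fun x hx => ?_⟩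
  have h := hC x hx
  have hb := sum_vonMangoldt_mul_log_div_le hx
  have hb0 : 0 ≤ ∑ n ∈ Ioc 0 ⌊x⌋₊, Λ n * Real.log (x / n) := by
    refine sum_nonneg fun n hn =>
      mul_nonneg ArithmeticFunction.vonMangoldt_nonneg (Real.log_nonneg ?_)
    have hn0 : (0 : ℝ) < n := Nat.cast_pos.2 (mem_Ioc.1 hn).1
    rw [le_div_iff₀ hn0, one_mul]
    exact (Nat.cast_le.2 (mem_Ioc.1 hn).2).trans (Nat.floor_le (by linarith))
  have e : ∑ n ∈ Ioc 0 ⌊x⌋₊, (Λ n * Real.log n + (Λ * Λ : ArithmeticFunction ℝ) n) =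
      ψ x * Real.log x + ∑ n ∈ Ioc 0 ⌊x⌋₊, Λ n * ψ (x / n) -
        ∑ n ∈ Ioc 0 ⌊x⌋₊, Λ n * Real.log (x / n) := by
    rw [sum_add_distrib, ArithmeticFunction.sum_Ioc_mul_eq_sum_sum, Chebyshev.psi, sum_mul,
      add_sub_right_comm, ← sum_sub_distrib]
    congr 1
    · refine sum_congr rfl fun n hn => ?_
      rw [Real.log_div (by linarith) (Nat.cast_ne_zero.2 (mem_Ioc.1 hn).1.ne')]
      ring
    · refine sum_congr rfl fun n _ => ?_
      rw [Chebyshev.psi, Nat.floor_div_natCast]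
  rw [e]
  rw [abs_le] at h ⊢
  constructor <;> nlinarith

end FA.SelbergSymmetry
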